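import Mathlib.LinearAlgebra.FreeModule.Finite.Basic
import Mathlib.LinearAlgebra.Basis.Basic
import Mathlib.RingTheory.Ideal.Operations
import Mathlib.RingTheory.Ideal.Maps
import Mathlib.LinearAlgebra.FreeModule.Basic

set_option autoImplicit false

namespace Fermat.Agent.S57

open Module

theorem basis_mem_ideal_smul_top_iff {ι A N : Type*} [CommRing A] [AddCommGroup N] [Module A N]
    (b : Basis ι A N) (I : Ideal A) (x : N) :
    x ∈ I • (⊤ : Submodule A N) ↔ ∀ i, b.repr x i ∈ I := by
  rw [← b.span_eq, Submodule.mem_ideal_smul_span_iff_exists_sum]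
  constructor
  · rintro ⟨a, ha, rfl⟩ i
    have h1 : (a.sum fun i c => c • b i) = Finsupp.linearCombination A b a := rfl
    rw [h1, Basis.repr_linearCombination]
    exact ha i
  · intro h
    refine ⟨b.repr x, h, ?_⟩
    have h1 : ((b.repr x).sum fun i c => c • b i) = Finsupp.linearCombination A b (b.repr x) := rfl
    rw [h1, b.linearCombination_repr x]

theorem descent_of_free {A R N M F : Type*} [CommRing A] [CommRing R] [AddCommGroup N]
    [Module A N] [AddCommGroup M] [Module R M] [Nontrivial M]
    [Module.Free A N] [Module.Finite A N] [FunLike F A R] [RingHomClass F A R]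
    (ψ : F) (hψ : Function.Surjective ψ) (I : Ideal A) (hI : I ≤ RingHom.ker ψ)
    (π : N →+ M) (hπ : ∀ (f : A) (x : N), π (f • x) = ψ f • π x)
    (hπs : Function.Surjective π)
    (hker : ∀ x, π x = 0 ↔ x ∈ I • (⊤ : Submodule A N)) :
    Module.Free R M ∧ Module.annihilator R M = ⊥ ∧ RingHom.ker ψ = I := by
  classical
  let bN : Basis (Module.Free.ChooseBasisIndex A N) A N := Module.Free.chooseBasis A N
  have hN : Nontrivial N := hπs.nontrivial
  have hne : Nonempty (Module.Free.ChooseBasisIndex A N) := bN.index_nonempty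
  have key : ∀ c : Module.Free.ChooseBasisIndex A N → A,
      π (∑ j, c j • bN j) = 0 ↔ ∀ j, c j ∈ I := by
    intro c
    rw [hker, basis_mem_ideal_smul_top_iff bN, bN.repr_sum_self]
  have hπsum : ∀ c : Module.Free.ChooseBasisIndex A N → A,
      π (∑ j, c j • bN j) = ∑ j, ψ (c j) • π (bN j) := by
    intro c
    rw [map_sum]
    exact Finset.sum_congr rfl fun j _ => hπ _ _
  have hkerψ : RingHom.ker ψ = I := by
    apply le_antisymm _ hI
    intro f hf
    obtain ⟨j0⟩ := hne
    have h1 : π (f • bN j0) = 0 := by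
      rw [hπ, (RingHom.mem_ker).mp hf, zero_smul]
    rw [hker, basis_mem_ideal_smul_top_iff bN] at h1
    have h2 := h1 j0
    rw [map_smul, Basis.repr_self, Finsupp.smul_single, Finsupp.single_eq_same, smul_eq_mul,
      mul_one] at h2
    exact h2
  have hli : LinearIndependent R (fun j => π (bN j)) := by
    rw [Fintype.linearIndependent_iff]
    intro g hg i
    choose a ha using fun j => hψ (g j)
    have h1 : π (∑ j, a j • bN j) = 0 := by
      rw [hπsum]
      simpa [ha] using hg
    have h2 := (key a).mp h1 i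
    rw [← ha i]
    exact (RingHom.mem_ker).mp (hI h2)
  have hsp : ⊤ ≤ Submodule.span R (Set.range fun j => π (bN j)) := by
    intro y _
    obtain ⟨x, rfl⟩ := hπs y
    rw [← bN.sum_repr x, hπsum]
    exact Submodule.sum_mem _ fun j _ =>
      Submodule.smul_mem _ _ (Submodule.subset_span ⟨j, rfl⟩)
  have hfree : Module.Free R M := Module.Free.of_basis (Basis.mk hli hsp)
  exact ⟨hfree, Module.annihilator_eq_bot.mpr inferInstance, hkerψ⟩

end Fermat.Agent.S57
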