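import Fermat.Agent.S57.DepthQuot

set_option autoImplicit false
set_option linter.style.haveILetI false

namespace Fermat.Agent.S57

open RingTheory.Sequence IsLocalRing

universe u

/-- choose a regular element outside the square of the maximal ideal -/
theorem exists_regular_not_mem_sq
    {A : Type u} [CommRing A] [IsLocalRing A] [IsNoetherianRing A]
    (N : Type u) [AddCommGroup N] [Module A N] [Module.Finite A N] [Nontrivial N]
    (r0 : A) (hr0 : r0 ∈ maximalIdeal A) (hr0reg : IsSMulRegular N r0) :
    ∃ x ∈ maximalIdeal A, x ∉ (maximalIdeal A) ^ 2 ∧ IsSMulRegular N x := by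
  by_contra! hcon
  have hsub : ((maximalIdeal A : Ideal A) : Set A) ⊆
      ⋃ I ∈ insert ((maximalIdeal A) ^ 2) (associatedPrimes A N), ((I : Ideal A) : Set A) := by
    intro y hy
    by_cases hy2 : y ∈ (maximalIdeal A) ^ 2
    · exact Set.mem_biUnion (Set.mem_insert _ _) hy2
    · have h1 : ¬ IsSMulRegular N y := hcon y hy hy2
      have h2 : y ∈ ⋃ p ∈ associatedPrimes A N, ((p : Ideal A) : Set A) := by
        rw [biUnion_associatedPrimes_eq_compl_regular]
        exact h1
      obtain ⟨p, hp, hyp⟩ := Set.mem_iUnion₂.mp h2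
      exact Set.mem_biUnion (Set.mem_insert_of_mem _ hp) hyp
  rw [Ideal.subset_union_prime_finite ((associatedPrimes.finite A N).insert _)
    ((maximalIdeal A) ^ 2) ((maximalIdeal A) ^ 2)] at hsub
  · obtain ⟨I, hI, hle⟩ := hsub
    rcases hI with rfl | hI
    · -- 𝔪 ≤ 𝔪² so 𝔪 = ⊥
      have hbot : maximalIdeal A = ⊥ := by
        apply Submodule.eq_bot_of_le_smul_of_le_jacobson_bot (maximalIdeal A) (maximalIdeal A)
          (IsNoetherian.noetherian _)
        · rw [smul_eq_mul, ← pow_two]; exact hle
        · exact maximalIdeal_le_jacobson _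
      rw [hbot] at hr0
      have : r0 = 0 := by simpa using hr0
      subst this
      exact not_subsingleton N ((IsSMulRegular.zero_iff_subsingleton).mp hr0reg)
    · have h1 : r0 ∈ ⋃ p ∈ associatedPrimes A N, ((p : Ideal A) : Set A) :=
        Set.mem_biUnion hI (hle hr0)
      rw [biUnion_associatedPrimes_eq_compl_regular] at h1
      exact h1 hr0reg
  · intro I hI h1 _
    rcases hI with rfl | hI
    · exact absurd rfl h1
    · exact hI.isPrime

/-- generators of the maximal ideal after removing one -/
theorem exists_generators_of_not_mem_sq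
    {A : Type u} [CommRing A] [IsLocalRing A] [DecidableEq A]
    (n : ℕ) (s : Finset A) (hs : s.card ≤ n + 1) (hspan : Ideal.span (s : Set A) = maximalIdeal A)
    (x : A) (hx : x ∈ maximalIdeal A) (hx2 : x ∉ (maximalIdeal A) ^ 2) :
    ∃ t : Finset A, t.card ≤ n ∧ Ideal.span (insert x (t : Set A)) = maximalIdeal A := by
  have hx' : x ∈ Ideal.span (s : Set A) := hspan ▸ hx
  obtain ⟨a, -, ha⟩ := (Submodule.mem_span_finset).mp hx'
  have hsm : ∀ g ∈ s, g ∈ maximalIdeal A := fun g hg => hspan ▸ Ideal.subset_span hg
  obtain ⟨g0, hg0, hu⟩ : ∃ g0 ∈ s, IsUnit (a g0) := by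
    by_contra! hcon
    apply hx2
    rw [← ha]
    refine Ideal.sum_mem _ fun g hg => ?_
    rw [pow_two, smul_eq_mul]
    exact Ideal.mul_mem_mul ((mem_maximalIdeal _).mpr (hcon g hg)) (hsm g hg)
  refine ⟨s.erase g0, ?_, ?_⟩
  · rw [Finset.card_erase_of_mem hg0]; omega
  · apply le_antisymm
    · rw [Ideal.span_le]
      intro y hy
      rcases hy with rfl | hy
      · exact hx
      · exact hsm y (Finset.mem_of_mem_erase hy)
    · rw [← hspan, Ideal.span_le]
      intro g hg
      by_cases hgg : g = g0
      · subst hgg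
        obtain ⟨u, hu'⟩ := hu
        have h1 : a g • g = x - ∑ h ∈ s.erase g, a h • h := by
          rw [← ha, ← Finset.add_sum_erase s _ hg]; ring
        have hmem : a g • g ∈ Ideal.span (insert x ((s.erase g : Finset A) : Set A)) := by
          rw [h1]
          refine Ideal.sub_mem _ (Ideal.subset_span (Set.mem_insert _ _))
            (Ideal.sum_mem _ fun h hh => ?_)
          exact Ideal.mul_mem_left _ _ (Ideal.subset_span (Set.mem_insert_of_mem _ hh))
        have h2 := Ideal.mul_mem_left _ (↑u⁻¹ : A) hmem
        rwa [smul_eq_mul, ← mul_assoc, ← hu', Units.inv_mul, one_mul] at h2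
      · exact Ideal.subset_span (Set.mem_insert_of_mem _ (Finset.mem_erase.mpr ⟨hgg, hg⟩))

/-- A finite module over a noetherian local ring whose maximal ideal has `n` generators,
carrying a weakly regular sequence of length `n` inside the maximal ideal, is free. -/
theorem free_of_isWeaklyRegular_aux (n : ℕ) :
    ∀ (A : Type u) [CommRing A] [IsLocalRing A] [IsNoetherianRing A] (s : Finset A),
      s.card ≤ n → Ideal.span (s : Set A) = maximalIdeal A →
      ∀ (N : Type u) [AddCommGroup N] [Module A N] [Module.Finite A N] (rs : List A),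
        rs.length = n → (∀ r ∈ rs, r ∈ maximalIdeal A) → IsWeaklyRegular N rs →
        Module.Free A N := by
  induction n with
  | zero =>
    intro A _ _ _ s hs hspan N _ _ _ rs _ _ _
    have hbot : maximalIdeal A = ⊥ := by
      rw [← hspan, Finset.card_eq_zero.mp (Nat.le_zero.mp hs)]; simp
    have hf : IsField A := IsLocalRing.isField_iff_maximalIdeal_eq.mpr hbot
    letI := hf.toField
    infer_instance
  | succ n ih =>
    intro A _ _ _ s hs hspan N _ _ _ rs hlen hmem hreg
    classical
    rcases subsingleton_or_nontrivial N with hN | hN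
    · infer_instance
    have hreg' : IsRegular N rs := IsRegular.of_isWeaklyRegular_of_mem_maximalIdeal N hmem hreg
    obtain ⟨r0, rs0, rfl⟩ : ∃ r0 rs0, rs = r0 :: rs0 := by
      cases rs with
      | nil => simp at hlen
      | cons a l => exact ⟨a, l, rfl⟩
    have hr0reg : IsSMulRegular N r0 := ((isWeaklyRegular_cons_iff N r0 rs0).mp hreg).1
    have hr0mem : r0 ∈ maximalIdeal A := hmem r0 List.mem_cons_self
    obtain ⟨x, hxm, hxm2, hxreg⟩ := exists_regular_not_mem_sq N r0 hr0mem hr0reg
    obtain ⟨t, htcard, htspan⟩ := exists_generators_of_not_mem_sq n s hs hspan x hxm hxm2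
    -- the quotient ring
    have hne : Ideal.span {x} ≠ (⊤ : Ideal A) := by
      intro h
      have : (1 : A) ∈ maximalIdeal A := by
        have h1 : (1 : A) ∈ Ideal.span {x} := h ▸ Submodule.mem_top
        exact (Ideal.span_le.mpr (Set.singleton_subset_iff.mpr hxm)) h1
      exact (maximalIdeal.isMaximal A).ne_top ((Ideal.eq_top_iff_one _).mpr this)
    haveI : Nontrivial (A ⧸ Ideal.span {x}) := Ideal.Quotient.nontrivial_iff.mpr hne
    haveI : IsLocalRing (A ⧸ Ideal.span {x}) :=
      IsLocalRing.of_surjective' (Ideal.Quotient.mk (Ideal.span {x})) Ideal.Quotient.mk_surjective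
    haveI : IsNoetherianRing (A ⧸ Ideal.span {x}) :=
      isNoetherianRing_of_surjective A _ (Ideal.Quotient.mk (Ideal.span {x}))
        Ideal.Quotient.mk_surjective
    have hmax : (maximalIdeal A).map (Ideal.Quotient.mk (Ideal.span {x})) =
        maximalIdeal (A ⧸ Ideal.span {x}) :=
      map_maximalIdeal_of_surjective _ Ideal.Quotient.mk_surjective
    -- generators of the new maximal ideal
    have hspan' : Ideal.span ((t.image (Ideal.Quotient.mk (Ideal.span {x})) : Finset _) : Set
        (A ⧸ Ideal.span {x})) = maximalIdeal (A ⧸ Ideal.span {x}) := by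
      rw [← hmax, ← htspan, Ideal.map_span, Finset.coe_image, Set.image_insert_eq]
      have h0 : (Ideal.Quotient.mk (Ideal.span {x})) x = 0 :=
        Ideal.Quotient.eq_zero_iff_mem.mpr (Ideal.mem_span_singleton_self x)
      rw [h0]
      apply le_antisymm
      · exact Ideal.span_mono (Set.subset_insert _ _)
      · rw [Ideal.span_le]
        intro y hy
        rcases hy with rfl | hy
        · exact Ideal.zero_mem _
        · exact Ideal.subset_span hy
    have hcard' : (t.image (Ideal.Quotient.mk (Ideal.span {x}))).card ≤ n :=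
      le_trans Finset.card_image_le htcard
    -- the quotient module
    haveI : Module.Finite (A ⧸ Ideal.span {x}) (QuotSMulTop x N) :=
      Module.Finite.of_restrictScalars_finite A (A ⧸ Ideal.span {x}) (QuotSMulTop x N)
    obtain ⟨rs', hlen', hmem', hreg''⟩ :=
      exists_isRegular_quotSMulTop N n (r0 :: rs0) hlen hmem hreg' x hxm hxreg
    have hwr : IsWeaklyRegular (QuotSMulTop x N)
        (rs'.map (algebraMap A (A ⧸ Ideal.span {x}))) :=
      (isWeaklyRegular_map_algebraMap_iff (A ⧸ Ideal.span {x}) (QuotSMulTop x N) rs').mpr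
        hreg''.toIsWeaklyRegular
    have hfree' : Module.Free (A ⧸ Ideal.span {x}) (QuotSMulTop x N) := by
      refine ih (A ⧸ Ideal.span {x}) _ hcard' hspan' (QuotSMulTop x N)
        (rs'.map (algebraMap A (A ⧸ Ideal.span {x}))) (by simpa using hlen') ?_ hwr
      intro r hr
      obtain ⟨r', hr', rfl⟩ := List.mem_map.mp hr
      rw [← hmax]
      exact Ideal.mem_map_of_mem _ (hmem' r' hr')
    haveI : Module.FinitePresentation A N := Module.finitePresentation_of_finite A N
    have hjac : x ∈ (⊥ : Ideal A).jacobson := by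
      rw [IsLocalRing.jacobson_eq_maximalIdeal ⊥ bot_ne_top]; exact hxm
    exact (Module.free_quotSMulTop_iff_free A N hjac hxreg).mp hfree'

theorem free_of_isWeaklyRegular
    {A : Type u} [CommRing A] [IsLocalRing A] [IsNoetherianRing A] (s : Finset A)
    (hspan : Ideal.span (s : Set A) = maximalIdeal A)
    (N : Type u) [AddCommGroup N] [Module A N] [Module.Finite A N] (rs : List A)
    (hlen : s.card ≤ rs.length) (hmem : ∀ r ∈ rs, r ∈ maximalIdeal A)
    (hreg : IsWeaklyRegular N rs) : Module.Free A N :=
  free_of_isWeaklyRegular_aux rs.length A s hlen hspan N rs rfl hmem hreg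

end Fermat.Agent.S57
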