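import Fermat.Agent.S57.VarIdeal

set_option autoImplicit false

namespace Fermat.Agent.S57

open MvPowerSeries RingTheory.Sequence IsLocalRing

variable {σ : Type*} {R : Type*} [CommRing R]

theorem ofList_map_X (l : List σ) :
    Ideal.ofList (l.map (X : σ → MvPowerSeries σ R)) = varIdeal {j | j ∈ l} := by
  classical
  have h1 : {j | j ∈ l} = ((l.toFinset : Finset σ) : Set σ) := by
    ext j; simp
  rw [h1, varIdeal_finset, Ideal.ofList]
  congr 1
  ext r
  simp

theorem isWeaklyRegular_map_X (l : List σ) (hl : l.Nodup) :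
    IsWeaklyRegular (MvPowerSeries σ R) (l.map (X : σ → MvPowerSeries σ R)) := by
  induction l using List.reverseRecOn with
  | nil => simp
  | append_singleton l a ih =>
    rw [List.map_append, List.map_cons, List.map_nil, isWeaklyRegular_append_iff,
      isWeaklyRegular_singleton_iff]
    have hl' := List.nodup_append.mp hl
    refine ⟨ih hl'.1, ?_⟩
    have ha : a ∉ l := fun h => hl'.2.2 a h a (List.mem_singleton_self a) rfl
    rw [isSMulRegular_quotient_iff_mem_of_smul_mem]
    intro f hf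
    rw [smul_eq_mul, Ideal.mul_top, ofList_map_X] at hf ⊢
    exact mem_varIdeal_of_X_mul_mem (by simpa using ha) hf

theorem set_of_mem_eq_univ {l : List σ} (hall : ∀ j, j ∈ l) : {j | j ∈ l} = Set.univ := by
  ext j; simp [hall j]

theorem isWeaklyRegular_X_append_C [Finite σ] (l : List σ) (hl : l.Nodup) (hall : ∀ j, j ∈ l)
    (ϖ : R) (hϖ : ∀ c, ϖ * c = 0 → c = 0) :
    IsWeaklyRegular (MvPowerSeries σ R)
      (l.map (X : σ → MvPowerSeries σ R) ++ [C ϖ]) := by
  rw [isWeaklyRegular_append_iff, isWeaklyRegular_singleton_iff]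
  refine ⟨isWeaklyRegular_map_X l hl, ?_⟩
  rw [isSMulRegular_quotient_iff_mem_of_smul_mem]
  intro f hf
  rw [smul_eq_mul, Ideal.mul_top, ofList_map_X, set_of_mem_eq_univ hall, mem_varIdeal_univ]
    at hf ⊢
  rw [smul_eq_mul, map_mul, constantCoeff_C] at hf
  exact hϖ _ hf

theorem ofList_X_append_C_eq_maximalIdeal [Finite σ] [IsLocalRing R] (l : List σ)
    (hall : ∀ j, j ∈ l) (ϖ : R) (hϖ : maximalIdeal R = Ideal.span {ϖ}) :
    Ideal.ofList (l.map (X : σ → MvPowerSeries σ R) ++ [C ϖ]) =
      maximalIdeal (MvPowerSeries σ R) := by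
  rw [Ideal.ofList_append, ofList_map_X, set_of_mem_eq_univ hall, Ideal.ofList_singleton]
  ext f
  rw [mem_maximalIdeal, mem_nonunits_iff, isUnit_iff_constantCoeff, ← mem_nonunits_iff,
    ← mem_maximalIdeal, hϖ, Ideal.mem_span_singleton]
  constructor
  · intro hf
    obtain ⟨g, hg, h, hh, rfl⟩ := Submodule.mem_sup.mp hf
    rw [mem_varIdeal_univ] at hg
    obtain ⟨c, rfl⟩ := Ideal.mem_span_singleton.mp hh
    rw [map_add, hg, zero_add, map_mul, constantCoeff_C]
    exact Dvd.intro _ rfl
  · rintro ⟨c, hc⟩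
    have h1 : f = (f - C (ϖ * c)) + C ϖ * C c := by
      rw [map_mul]; ring
    rw [h1]
    refine Submodule.add_mem_sup ?_ (Ideal.mem_span_singleton.mpr (Dvd.intro _ rfl))
    rw [mem_varIdeal_univ, map_sub, constantCoeff_C, hc, sub_self]

end Fermat.Agent.S57
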