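import Fermat.Prelude.Def_Algebra_PatchingDatum
import Mathlib.RingTheory.DiscreteValuationRing.Basic
import Mathlib.RingTheory.MvPowerSeries.Equiv
import Mathlib.RingTheory.Regular.Flat
import Fermat.Agent.S57.McmFree
import Fermat.Agent.S57.PowerSeriesSeq
import Fermat.Agent.S57.Descent

set_option autoImplicit false

namespace Fermat.Agent.S57

open MvPowerSeries RingTheory.Sequence IsLocalRing TensorProduct

variable {𝒪 : Type} [CommRing 𝒪] {r : ℕ} {R : Type} [CommRing R] [Algebra 𝒪 R]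
  {M : Type} [AddCommGroup M] [Module R M]

/-- the coordinate map `c ↦ ∑ φ (c i) • b i` -/
noncomputable def coordHom (L : Algebra.PatchingLevel 𝒪 r R M ⊥) :
    (Fin L.d → MvPowerSeries (Fin r) 𝒪) →+ L.N where
  toFun c := ∑ i, L.φ (c i) • L.b i
  map_zero' := by simp
  map_add' c c' := by simp [add_smul, Finset.sum_add_distrib]

theorem coordHom_apply (L : Algebra.PatchingLevel 𝒪 r R M ⊥)
    (c : Fin L.d → MvPowerSeries (Fin r) 𝒪) : coordHom L c = ∑ i, L.φ (c i) • L.b i := rfl

theorem coordHom_bijective (L : Algebra.PatchingLevel 𝒪 r R M ⊥) :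
    Function.Bijective (coordHom L) := by
  constructor
  · rw [injective_iff_map_eq_zero]
    intro c hc
    rw [coordHom_apply, L.b_rel] at hc
    ext i : 1
    simpa using hc i
  · intro x
    obtain ⟨c, hc⟩ := L.b_span x
    exact ⟨c, hc.symm⟩

noncomputable def coordEquiv (L : Algebra.PatchingLevel 𝒪 r R M ⊥) :
    (Fin L.d → MvPowerSeries (Fin r) 𝒪) ≃+ L.N :=
  AddEquiv.ofBijective (coordHom L) (coordHom_bijective L)

theorem coordEquiv_smul (L : Algebra.PatchingLevel 𝒪 r R M ⊥) (a : MvPowerSeries (Fin r) 𝒪)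
    (c : Fin L.d → MvPowerSeries (Fin r) 𝒪) :
    coordEquiv L (a • c) = L.φ a • coordEquiv L c := by
  change coordHom L (a • c) = L.φ a • coordHom L c
  rw [coordHom_apply, coordHom_apply, Finset.smul_sum]
  refine Finset.sum_congr rfl fun i _ => ?_
  rw [Pi.smul_apply, smul_eq_mul, map_mul, mul_smul]

theorem finite_N (L : Algebra.PatchingLevel 𝒪 r R M ⊥) :
    Module.Finite (MvPowerSeries (Fin r) 𝒪) L.N := by
  refine Module.Finite.of_surjective (Fintype.linearCombination (MvPowerSeries (Fin r) 𝒪) L.b) ?_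
  intro x
  obtain ⟨c, hc⟩ := L.b_span x
  refine ⟨fun i => L.φ (c i), ?_⟩
  rw [Fintype.linearCombination_apply, hc]

/-- transfer of weak regularity along the coordinate map -/
theorem isWeaklyRegular_N (L : Algebra.PatchingLevel 𝒪 r R M ⊥)
    (rs : List (MvPowerSeries (Fin r) 𝒪))
    (h : IsWeaklyRegular (MvPowerSeries (Fin r) 𝒪) rs) :
    IsWeaklyRegular L.N (rs.map L.φ) := by
  have h1 : IsWeaklyRegular ((Fin L.d → MvPowerSeries (Fin r) 𝒪) ⊗[MvPowerSeries (Fin r) 𝒪]
      (MvPowerSeries (Fin r) 𝒪)) rs := h.isWeaklyRegular_lTensor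
  have h2 : IsWeaklyRegular (Fin L.d → MvPowerSeries (Fin r) 𝒪) rs :=
    ((TensorProduct.rid (MvPowerSeries (Fin r) 𝒪)
      (Fin L.d → MvPowerSeries (Fin r) 𝒪)).isWeaklyRegular_congr rs).mp h1
  refine (AddEquiv.isWeaklyRegular_congr (e := coordEquiv L) ?_).mp h2
  exact List.forall₂_map_right_iff.mpr <| List.forall₂_same.mpr fun a _ x => coordEquiv_smul L a x

end Fermat.Agent.S57
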