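import Mathlib.RingTheory.Depth.Rees
import Mathlib.RingTheory.Regular.Free

set_option autoImplicit false

namespace Fermat.Agent.S57

open RingTheory.Sequence IsLocalRing CategoryTheory Abelian

universe u

theorem smul_top_lt_top_of_local {A : Type u} [CommRing A] [IsLocalRing A]
    (N : Type u) [AddCommGroup N] [Module A N] [Module.Finite A N] [Nontrivial N] :
    (maximalIdeal A) • (⊤ : Submodule A N) < ⊤ :=
  lt_top_iff_ne_top.mpr (Ne.symm
    (Submodule.top_ne_ideal_smul_of_le_jacobson_annihilator (maximalIdeal_le_jacobson _)))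

theorem support_residue_eq {A : Type u} [CommRing A] [IsLocalRing A] :
    Module.support A (A ⧸ maximalIdeal A) = PrimeSpectrum.zeroLocus (maximalIdeal A : Set A) := by
  rw [Module.support_eq_zeroLocus, Ideal.annihilator_quotient]

theorem exists_isRegular_quotSMulTop
    {A : Type u} [CommRing A] [IsLocalRing A] [IsNoetherianRing A]
    (N : Type u) [AddCommGroup N] [Module A N] [Module.Finite A N] [Nontrivial N]
    (n : ℕ) (rs : List A) (hlen : rs.length = n + 1) (hmem : ∀ r ∈ rs, r ∈ maximalIdeal A)
    (hreg : IsRegular N rs) (x : A) (hx : x ∈ maximalIdeal A) (hxreg : IsSMulRegular N x) :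
    ∃ rs' : List A, rs'.length = n ∧ (∀ r ∈ rs', r ∈ maximalIdeal A) ∧
      IsRegular (QuotSMulTop x N) rs' := by
  let k : ModuleCat.{u} A := ModuleCat.of A (A ⧸ maximalIdeal A)
  have hsupp : Module.support A k = PrimeSpectrum.zeroLocus (maximalIdeal A : Set A) :=
    support_residue_eq
  have h_ext : ∀ i < n + 1, Subsingleton (Ext k (ModuleCat.of A N) i) := by
    have := ModuleCat.subsingleton_ext_of_exists_isRegular (maximalIdeal A) k hsupp.subset
      (ModuleCat.of A N) (smul_top_lt_top_of_local N) rs hmem hreg
    rwa [hlen] at this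
  have h_ext' : ∀ i < n, Subsingleton (Ext k (ModuleCat.of A (QuotSMulTop x N)) i) := by
    intro i hi
    have zero1 := AddCommGrpCat.isZero_of_iff_subsingleton.mpr (h_ext i (by omega))
    have zero2 := AddCommGrpCat.isZero_of_iff_subsingleton.mpr (h_ext (i + 1) (by omega))
    exact AddCommGrpCat.subsingleton_of_isZero <| ShortComplex.Exact.isZero_of_both_zeros
      ((Ext.covariant_sequence_exact₃' k
        (IsSMulRegular.smulShortComplex_shortExact (M := ModuleCat.of A N) hxreg)) i (i + 1) rfl)
      (zero1.eq_zero_of_src _) (zero2.eq_zero_of_tgt _)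
  have : Nontrivial (QuotSMulTop x N) := nontrivial_quotSMulTop_of_mem_maximalIdeal N hx
  exact ModuleCat.exists_isRegular_of_exists_subsingleton_ext (maximalIdeal A) n
    (ModuleCat.of A (QuotSMulTop x N)) (smul_top_lt_top_of_local (QuotSMulTop x N)) k hsupp h_ext'

end Fermat.Agent.S57
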