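import Fermat.Prelude.Def_Algebra_PatchingDatum
import Mathlib.LinearAlgebra.FreeModule.Basic
import Mathlib.LinearAlgebra.Basis.Basic
import Mathlib.RingTheory.Ideal.Operations
import Mathlib.RingTheory.Finiteness.Basic

set_option autoImplicit false

namespace Fermat.Agent.S57.H65

open Module

section Basis

variable {A : Type*} [CommRing A] {N : Type*} [AddCommGroup N] [Module A N]
  {ι : Type*}

/-- Membership in `I • ⊤` can be read off coordinates in a basis. -/
theorem mem_smul_top_iff_repr (e : Basis ι A N) (I : Ideal A) (x : N) :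
    x ∈ I • (⊤ : Submodule A N) ↔ ∀ i, e.repr x i ∈ I := by
  rw [← e.span_eq, Submodule.mem_ideal_smul_span_iff_exists_sum]
  constructor
  · rintro ⟨a, ha, rfl⟩ i
    have : (a.sum fun i c => c • e i) = Finsupp.linearCombination A e a := by
      rw [Finsupp.linearCombination_apply]
    rw [this, e.repr_linearCombination]
    exact ha i
  · intro h
    refine ⟨e.repr x, h, ?_⟩
    have := e.linearCombination_repr x
    rwa [Finsupp.linearCombination_apply] at this

theorem mem_of_forall_smul_mem_smul_top [Nonempty ι] (e : Basis ι A N) (I : Ideal A) (f : A)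
    (h : ∀ x : N, f • x ∈ I • (⊤ : Submodule A N)) : f ∈ I := by
  classical
  obtain ⟨i⟩ := ‹Nonempty ι›
  have := (mem_smul_top_iff_repr e I (f • e i)).1 (h (e i)) i
  simpa using this

end Basis

section Final

variable {𝒪 : Type} [CommRing 𝒪] {r : ℕ} {R : Type} [CommRing R] [Algebra 𝒪 R]
  {M : Type} [AddCommGroup M] [Module R M] {J : Ideal (MvPowerSeries (Fin r) 𝒪)}

/-- The ideal generated by the `φ (X i)`. -/
noncomputable def aIdeal (L : Algebra.PatchingLevel 𝒪 r R M J) : Ideal (MvPowerSeries (Fin r) 𝒪) :=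
  Ideal.span (Set.range fun i : Fin r => L.φ (MvPowerSeries.X i))

theorem aIdeal_le_ker (L : Algebra.PatchingLevel 𝒪 r R M J) : aIdeal L ≤ RingHom.ker L.ψ := by
  unfold aIdeal
  rw [Ideal.span_le]
  rintro _ ⟨i, rfl⟩
  exact L.ψ_φ_X i

theorem final_of_free (L : Algebra.PatchingLevel 𝒪 r R M J) [Nontrivial M]
    [Module.Free (MvPowerSeries (Fin r) 𝒪) L.N] :
    Module.Free R M ∧ Module.annihilator R M = ⊥ ∧
      RingHom.ker L.ψ = Ideal.span (Set.range fun i : Fin r => L.φ (MvPowerSeries.X i)) := by
  classical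
  have hN : Nontrivial L.N := by
    obtain ⟨m, hm⟩ := exists_ne (0 : M)
    obtain ⟨x, rfl⟩ := L.π_surjective m
    exact ⟨⟨x, 0, fun h => hm (by rw [h, map_zero])⟩⟩
  let ι := Module.Free.ChooseBasisIndex (MvPowerSeries (Fin r) 𝒪) L.N
  let e : Basis ι (MvPowerSeries (Fin r) 𝒪) L.N :=
    Module.Free.chooseBasis (MvPowerSeries (Fin r) 𝒪) L.N
  have hne : Nonempty ι := inferInstance
  -- key fact: if `ψ f` kills `M` then `f ∈ aIdeal`
  have key : ∀ f : MvPowerSeries (Fin r) 𝒪, (∀ m : M, L.ψ f • m = 0) → f ∈ aIdeal L := by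
    intro f hf
    refine mem_of_forall_smul_mem_smul_top e (aIdeal L) f (fun x => ?_)
    have h1 : L.π (f • x) = 0 := by rw [L.π_smul, hf]
    exact (L.ker_π _).1 h1
  have hker : RingHom.ker L.ψ = aIdeal L := by
    refine le_antisymm (fun f hf => key f (fun m => ?_)) (aIdeal_le_ker L)
    rw [RingHom.mem_ker] at hf
    rw [hf, zero_smul]
  refine ⟨?_, ?_, hker⟩
  · -- freeness: the images of the basis vectors form a basis
    have hπe : ∀ (c : ι →₀ MvPowerSeries (Fin r) 𝒪),
        L.π (Finsupp.linearCombination _ e c) =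
          Finsupp.linearCombination R (fun i => L.π (e i)) (c.mapRange L.ψ (map_zero _)) := by
      intro c
      rw [Finsupp.linearCombination_apply, Finsupp.linearCombination_apply,
        Finsupp.sum_mapRange_index (by intro i; simp), Finsupp.sum, Finsupp.sum, map_sum]
      refine Finset.sum_congr rfl (fun i _ => ?_)
      rw [L.π_smul]
    have hψsurj : ∀ c' : ι →₀ R, ∃ c : ι →₀ MvPowerSeries (Fin r) 𝒪,
        c.mapRange L.ψ (map_zero _) = c' := by
      intro c'
      refine ⟨c'.mapRange (fun ρ => if ρ = 0 then 0 else (L.ψ_surjective ρ).choose) (by simp), ?_⟩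
      ext i
      simp only [Finsupp.mapRange_apply]
      split_ifs with h
      · simp [h]
      · exact (L.ψ_surjective (c' i)).choose_spec
    refine Module.Free.of_basis (ι := ι) (Basis.mk (v := fun i => L.π (e i)) ?_ ?_)
    · -- linear independence
      rw [linearIndependent_iff]
      intro c' hc'
      obtain ⟨c, rfl⟩ := hψsurj c'
      rw [← hπe, L.ker_π] at hc'
      have hc := (mem_smul_top_iff_repr e _ _).1 hc'
      ext i
      have hi := hc i
      rw [e.repr_linearCombination] at hi
      have := aIdeal_le_ker L hi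
      simpa [RingHom.mem_ker] using this
    · -- spanning
      rintro m -
      obtain ⟨x, rfl⟩ := L.π_surjective m
      rw [← e.linearCombination_repr x, hπe]
      rw [Finsupp.linearCombination_apply]
      exact Submodule.sum_mem _ fun i _ =>
        Submodule.smul_mem _ _ (Submodule.subset_span ⟨i, rfl⟩)
  · -- faithfulness
    rw [eq_bot_iff]
    intro ρ hρ
    rw [Module.mem_annihilator] at hρ
    obtain ⟨f, rfl⟩ := L.ψ_surjective ρ
    have := key f hρ
    rw [← hker, RingHom.mem_ker] at this
    simpa using this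

end Final

end Fermat.Agent.S57.H65
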