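import Mathlib.RingTheory.MvPowerSeries.Basic
import Mathlib.RingTheory.MvPowerSeries.Inverse
import Mathlib.RingTheory.MvPowerSeries.NoZeroDivisors
import Mathlib.RingTheory.Regular.RegularSequence
import Mathlib.RingTheory.DiscreteValuationRing.Basic

set_option autoImplicit false

namespace Fermat.Agent.S57.H65

open MvPowerSeries RingTheory.Sequence

section SpanX

variable {σ : Type*} {R : Type*} [CommRing R]

/-- The ideal generated by the variables in a finite set. -/
noncomputable def spanX (s : Finset σ) : Ideal (MvPowerSeries σ R) :=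
  Ideal.span ((fun j => (X j : MvPowerSeries σ R)) '' (s : Set σ))

theorem X_mem_spanX {s : Finset σ} {j : σ} (hj : j ∈ s) :
    (X j : MvPowerSeries σ R) ∈ spanX s :=
  Ideal.subset_span ⟨j, hj, rfl⟩

theorem spanX_mono {s t : Finset σ} (h : s ⊆ t) : (spanX s : Ideal (MvPowerSeries σ R)) ≤ spanX t :=
  Ideal.span_mono (Set.image_mono (by exact_mod_cast h))

theorem coeff_eq_zero_of_mem_spanX {s : Finset σ} {f : MvPowerSeries σ R} (hf : f ∈ spanX s)
    (m : σ →₀ ℕ) (hm : ∀ j ∈ s, m j = 0) : coeff m f = 0 := by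
  classical
  induction hf using Submodule.span_induction generalizing m with
  | mem x hx =>
    obtain ⟨j, hj, rfl⟩ := hx
    rw [coeff_X, if_neg]
    rintro rfl
    have := hm j hj
    simp at this
  | zero => simp
  | add x y _ _ hx hy => rw [map_add, hx m hm, hy m hm, add_zero]
  | smul a x _ hx =>
    rw [smul_eq_mul, coeff_mul]
    refine Finset.sum_eq_zero ?_
    rintro ⟨p, q⟩ hpq
    simp only [Finset.mem_antidiagonal] at hpq
    rw [hx q, mul_zero]
    intro j hj
    have h1 := hm j hj
    rw [← hpq, Finsupp.add_apply] at h1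
    omega

theorem mem_spanX_of_forall_coeff (s : Finset σ) (f : MvPowerSeries σ R)
    (hf : ∀ m : σ →₀ ℕ, (∀ j ∈ s, m j = 0) → coeff m f = 0) : f ∈ spanX s := by
  classical
  induction s using Finset.induction_on generalizing f with
  | empty =>
    have : f = 0 := by
      ext m
      simpa using hf m (by simp)
    rw [this]
    exact Submodule.zero_mem _
  | insert a s ha ih =>
    let f' : MvPowerSeries σ R := fun m => if m a = 0 then coeff m f else 0
    have hf' : ∀ m, coeff m f' = if m a = 0 then coeff m f else 0 := fun m => rfl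
    have h1 : f' ∈ spanX s := by
      refine ih f' (fun m hm => ?_)
      rw [hf']
      split_ifs with h
      · refine hf m (fun j hj => ?_)
        rcases Finset.mem_insert.1 hj with rfl | hj
        · exact h
        · exact hm j hj
      · rfl
    have h2 : (X a : MvPowerSeries σ R) ∣ f - f' := by
      rw [X_dvd_iff]
      intro m hm
      rw [map_sub, hf', if_pos hm, sub_self]
    obtain ⟨g, hg⟩ := h2
    have h3 : f = f' + X a * g := by rw [← hg]; ring
    rw [h3]
    refine Submodule.add_mem _ (spanX_mono (Finset.subset_insert a s) h1) ?_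
    exact Ideal.mul_mem_right _ _ (X_mem_spanX (Finset.mem_insert_self a s))

theorem mem_spanX_iff (s : Finset σ) (f : MvPowerSeries σ R) :
    f ∈ spanX s ↔ ∀ m : σ →₀ ℕ, (∀ j ∈ s, m j = 0) → coeff m f = 0 :=
  ⟨fun hf m hm => coeff_eq_zero_of_mem_spanX hf m hm, mem_spanX_of_forall_coeff s f⟩

theorem mem_spanX_of_X_mul_mem {s : Finset σ} {a : σ} (ha : a ∉ s) {f : MvPowerSeries σ R}
    (h : X a * f ∈ spanX s) : f ∈ spanX s := by
  classical
  rw [mem_spanX_iff] at h ⊢
  intro m hm
  have h1 := h (Finsupp.single a 1 + m) (fun j hj => by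
    have hja : a ≠ j := fun e => ha (e ▸ hj)
    simp [hm j hj, Finsupp.single_eq_of_ne' hja])
  rw [X_def, coeff_add_monomial_mul, one_mul] at h1
  exact h1

theorem mem_spanX_univ_iff [Fintype σ] (f : MvPowerSeries σ R) :
    f ∈ spanX (Finset.univ : Finset σ) ↔ constantCoeff f = 0 := by
  rw [mem_spanX_iff]
  constructor
  · intro h
    have := h 0 (by simp)
    simpa using this
  · intro h m hm
    have : m = 0 := by
      ext j
      simpa using hm j (Finset.mem_univ j)
    rw [this]
    simpa using h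

end SpanX

section Lists

variable {𝒪 : Type*} [CommRing 𝒪] {r : ℕ}

/-- The list of variables. -/
noncomputable def xList (𝒪 : Type*) [CommRing 𝒪] (r : ℕ) : List (MvPowerSeries (Fin r) 𝒪) :=
  List.ofFn (fun j : Fin r => (X j : MvPowerSeries (Fin r) 𝒪))

@[simp] theorem length_xList : (xList 𝒪 r).length = r := by simp [xList]

theorem ofList_take_xList (i : ℕ) :
    Ideal.ofList ((xList 𝒪 r).take i) =
      spanX (Finset.univ.filter (fun j : Fin r => j.val < i)) := by
  unfold spanX Ideal.ofList
  congr 1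
  ext x
  simp only [Set.mem_ofPred_eq, List.mem_take_iff_getElem, xList, List.getElem_ofFn,
    List.length_ofFn, Finset.coe_filter, Finset.mem_univ, true_and, Set.mem_image]
  constructor
  · rintro ⟨k, hk, rfl⟩
    exact ⟨⟨k, by omega⟩, by simp only []; omega, rfl⟩
  · rintro ⟨j, hj, rfl⟩
    exact ⟨j.val, by have := j.isLt; omega, rfl⟩

theorem ofList_xList : Ideal.ofList (xList 𝒪 r) = spanX (Finset.univ : Finset (Fin r)) := by
  have := ofList_take_xList (𝒪 := 𝒪) (r := r) r
  rw [List.take_of_length_le (by simp)] at this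
  rw [this]
  congr 1
  ext j
  simp

theorem isWeaklyRegular_xList :
    IsWeaklyRegular (MvPowerSeries (Fin r) 𝒪) (xList 𝒪 r) := by
  rw [isWeaklyRegular_iff]
  intro i hi
  rw [isSMulRegular_quotient_iff_mem_of_smul_mem]
  intro f hf
  rw [smul_eq_mul, Ideal.mul_top, ofList_take_xList] at hf ⊢
  have hi' : i < r := by simpa using hi
  have hget : (xList 𝒪 r)[i] = X (⟨i, hi'⟩ : Fin r) := by simp [xList]
  rw [hget, smul_eq_mul] at hf
  exact mem_spanX_of_X_mul_mem (by simp) hf

/-- The list of variables followed by a constant. -/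
noncomputable def yList (r : ℕ) (ϖ : 𝒪) : List (MvPowerSeries (Fin r) 𝒪) :=
  xList 𝒪 r ++ [C ϖ]

@[simp] theorem length_yList (ϖ : 𝒪) : (yList r ϖ).length = r + 1 := by simp [yList]

theorem isWeaklyRegular_yList [NoZeroDivisors 𝒪] {ϖ : 𝒪} (hϖ : ϖ ≠ 0) :
    IsWeaklyRegular (MvPowerSeries (Fin r) 𝒪) (yList r ϖ) := by
  unfold yList
  rw [isWeaklyRegular_append_iff]
  refine ⟨isWeaklyRegular_xList, ?_⟩
  rw [isWeaklyRegular_singleton_iff, isSMulRegular_quotient_iff_mem_of_smul_mem]
  intro f hf
  rw [smul_eq_mul, Ideal.mul_top, ofList_xList, mem_spanX_univ_iff] at hf ⊢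
  rw [smul_eq_mul, map_mul, constantCoeff_C] at hf
  exact (mul_eq_zero.1 hf).resolve_left hϖ

theorem ofList_yList_eq_maximalIdeal [IsDomain 𝒪] [IsDiscreteValuationRing 𝒪] {ϖ : 𝒪}
    (hϖ : Irreducible ϖ) :
    Ideal.ofList (yList r ϖ) = IsLocalRing.maximalIdeal (MvPowerSeries (Fin r) 𝒪) := by
  unfold yList
  rw [Ideal.ofList_append, Ideal.ofList_singleton, ofList_xList]
  ext f
  rw [IsLocalRing.mem_maximalIdeal, mem_nonunits_iff, isUnit_iff_constantCoeff,
    ← mem_nonunits_iff, ← IsLocalRing.mem_maximalIdeal, hϖ.maximalIdeal_eq,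
    Ideal.mem_span_singleton]
  constructor
  · intro hf
    obtain ⟨g, hg, h, hh, rfl⟩ := Submodule.mem_sup.1 hf
    rw [mem_spanX_univ_iff] at hg
    obtain ⟨c, rfl⟩ := Ideal.mem_span_singleton.1 hh
    rw [map_add, hg, zero_add, map_mul, constantCoeff_C]
    exact dvd_mul_right _ _
  · rintro ⟨a, ha⟩
    have h1 : f = (f - C (constantCoeff f)) + C ϖ * C a := by
      rw [ha, map_mul]; ring
    rw [h1]
    refine Submodule.add_mem_sup ?_ (Ideal.mem_span_singleton.2 (dvd_mul_right _ _))
    rw [mem_spanX_univ_iff, map_sub, constantCoeff_C, sub_self]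

end Lists

end Fermat.Agent.S57.H65
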