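import Fermat.Prelude.Def_Algebra_PatchingDatum
import Mathlib.RingTheory.Regular.RegularSequence
import Mathlib.RingTheory.Flat.Basic
import Mathlib.RingTheory.Finiteness.Basic
import Mathlib.RingTheory.MvPowerSeries.Inverse

set_option autoImplicit false

namespace Fermat.Agent.S57.H65

open RingTheory.Sequence

section Pi

variable {A : Type*} [CommRing A] {κ : Type*} [Finite κ]

theorem isWeaklyRegular_pi {ys : List A} (h : IsWeaklyRegular A ys) :
    IsWeaklyRegular (κ → A) ys := by
  have h1 : IsWeaklyRegular (TensorProduct A (κ → A) A) ys := h.isWeaklyRegular_lTensor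
  exact (LinearEquiv.isWeaklyRegular_congr (TensorProduct.rid A (κ → A)) ys).1 h1

end Pi

section Transfer

variable {𝒪 : Type} [CommRing 𝒪] {r : ℕ} {R : Type} [CommRing R] [Algebra 𝒪 R]
  {M : Type} [AddCommGroup M] [Module R M]

/-- The `φ`-semilinear coordinate map `c ↦ ∑ i, φ (c i) • b i`. -/
noncomputable def coordHom (L : Algebra.PatchingLevel 𝒪 r R M ⊥) :
    (Fin L.d → MvPowerSeries (Fin r) 𝒪) →+ L.N where
  toFun c := ∑ i, L.φ (c i) • L.b i
  map_zero' := by simp
  map_add' c c' := by simp [add_smul, Finset.sum_add_distrib]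

theorem coordHom_apply (L : Algebra.PatchingLevel 𝒪 r R M ⊥)
    (c : Fin L.d → MvPowerSeries (Fin r) 𝒪) : coordHom L c = ∑ i, L.φ (c i) • L.b i := rfl

theorem coordHom_bijective (L : Algebra.PatchingLevel 𝒪 r R M ⊥) :
    Function.Bijective (coordHom L) := by
  constructor
  · rw [injective_iff_map_eq_zero]
    intro c hc
    rw [coordHom_apply, L.b_rel] at hc
    funext i
    simpa using hc i
  · intro x
    obtain ⟨c, hc⟩ := L.b_span x
    exact ⟨c, hc.symm⟩

/-- The coordinate map as an additive equivalence. -/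
noncomputable def coordEquiv (L : Algebra.PatchingLevel 𝒪 r R M ⊥) :
    (Fin L.d → MvPowerSeries (Fin r) 𝒪) ≃+ L.N :=
  AddEquiv.ofBijective (coordHom L) (coordHom_bijective L)

theorem coordEquiv_smul (L : Algebra.PatchingLevel 𝒪 r R M ⊥) (a : MvPowerSeries (Fin r) 𝒪)
    (c : Fin L.d → MvPowerSeries (Fin r) 𝒪) :
    coordEquiv L (a • c) = L.φ a • coordEquiv L c := by
  change coordHom L (a • c) = L.φ a • coordHom L c
  simp only [coordHom_apply, Pi.smul_apply, smul_eq_mul, map_mul, Finset.smul_sum, mul_smul]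

theorem isWeaklyRegular_map_phi (L : Algebra.PatchingLevel 𝒪 r R M ⊥)
    {ys : List (MvPowerSeries (Fin r) 𝒪)}
    (h : IsWeaklyRegular (MvPowerSeries (Fin r) 𝒪) ys) :
    IsWeaklyRegular L.N (ys.map L.φ) := by
  have h1 : IsWeaklyRegular (Fin L.d → MvPowerSeries (Fin r) 𝒪) ys := isWeaklyRegular_pi h
  refine (AddEquiv.isWeaklyRegular_congr (e := coordEquiv L) ?_).1 h1
  refine List.forall₂_map_right_iff.mpr (List.forall₂_same.mpr fun a _ c => ?_)
  exact coordEquiv_smul L a c

theorem isRegular_map_phi [IsLocalRing 𝒪] (L : Algebra.PatchingLevel 𝒪 r R M ⊥) [Nontrivial L.N]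
    {ys : List (MvPowerSeries (Fin r) 𝒪)}
    (h : IsWeaklyRegular (MvPowerSeries (Fin r) 𝒪) ys)
    (hmem : ∀ y ∈ ys, y ∈ IsLocalRing.maximalIdeal (MvPowerSeries (Fin r) 𝒪)) :
    IsRegular L.N (ys.map L.φ) := by
  have h1 : IsWeaklyRegular (Fin L.d → MvPowerSeries (Fin r) 𝒪) ys := isWeaklyRegular_pi h
  have hnt : Nontrivial (Fin L.d → MvPowerSeries (Fin r) 𝒪) :=
    (coordEquiv L).toEquiv.nontrivial
  have h2 : IsRegular (Fin L.d → MvPowerSeries (Fin r) 𝒪) ys :=
    IsRegular.of_isWeaklyRegular_of_mem_maximalIdeal _ hmem h1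
  refine (AddEquiv.isRegular_congr (e := coordEquiv L) ?_).1 h2
  refine List.forall₂_map_right_iff.mpr (List.forall₂_same.mpr fun a _ c => ?_)
  exact coordEquiv_smul L a c

/-- Members of a regular sequence on a module over a local ring lie in the maximal ideal. -/
theorem mem_maximalIdeal_of_isRegular {A : Type*} [CommRing A] [IsLocalRing A]
    {N : Type*} [AddCommGroup N] [Module A N] {zs : List A} (h : IsRegular N zs) :
    ∀ z ∈ zs, z ∈ IsLocalRing.maximalIdeal A := by
  intro z hz
  have hne : Ideal.ofList zs ≠ ⊤ := by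
    intro htop
    apply h.top_ne_smul
    rw [htop, Submodule.top_smul]
  exact IsLocalRing.le_maximalIdeal hne (Ideal.subset_span hz)

theorem finite_N (L : Algebra.PatchingLevel 𝒪 r R M ⊥) :
    Module.Finite (MvPowerSeries (Fin r) 𝒪) L.N := by
  classical
  refine ⟨⟨Finset.univ.image L.b, ?_⟩⟩
  rw [eq_top_iff]
  rintro x -
  obtain ⟨c, rfl⟩ := L.b_span x
  refine Submodule.sum_mem _ fun i _ => Submodule.smul_mem _ _ (Submodule.subset_span ?_)
  simp

end Transfer

end Fermat.Agent.S57.H65
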