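import Fermat.Agent.S57.H65_Final
import Fermat.Agent.S57.H65_Transfer
import Fermat.Agent.S57.H65_PowerSeries
import Mathlib.RingTheory.MvPowerSeries.Equiv

set_option autoImplicit false

namespace Fermat.Agent.S57.H65

open RingTheory.Sequence

/-- The abstract freeness criterion, as a proposition (to be supplied). -/
def FreeCriterion : Prop :=
  ∀ {A : Type} [CommRing A] [IsLocalRing A] [IsNoetherianRing A]
    {N : Type} [AddCommGroup N] [Module A N] [Module.Finite A N] (ys zs : List A),
    Ideal.ofList ys = IsLocalRing.maximalIdeal A → ys.length ≤ zs.length →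
    (∀ z ∈ zs, z ∈ IsLocalRing.maximalIdeal A) → IsWeaklyRegular N zs → Module.Free A N

theorem result_of_freeCriterion (hA : FreeCriterion)
    {𝒪 : Type} [CommRing 𝒪] [IsDomain 𝒪] [IsDiscreteValuationRing 𝒪]
    {r : ℕ} {R : Type} [CommRing R] [Algebra 𝒪 R]
    {M : Type} [AddCommGroup M] [Module R M] [Nontrivial M]
    (L : Algebra.PatchingLevel 𝒪 r R M ⊥) :
    Module.Free R M ∧ Module.annihilator R M = ⊥ ∧
      RingHom.ker L.ψ = Ideal.span (Set.range fun i : Fin r => L.φ (MvPowerSeries.X i)) := by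
  have hN : Nontrivial L.N := by
    obtain ⟨m, hm⟩ := exists_ne (0 : M)
    obtain ⟨x, rfl⟩ := L.π_surjective m
    exact ⟨⟨x, 0, fun h => hm (by rw [h, map_zero])⟩⟩
  obtain ⟨ϖ, hϖ⟩ := IsDiscreteValuationRing.exists_irreducible 𝒪
  have hfin : Module.Finite (MvPowerSeries (Fin r) 𝒪) L.N := finite_N L
  have hmax := ofList_yList_eq_maximalIdeal (r := r) hϖ
  have hys : ∀ y ∈ yList r ϖ, y ∈ IsLocalRing.maximalIdeal (MvPowerSeries (Fin r) 𝒪) := by
    intro y hy
    rw [← hmax]
    exact Ideal.subset_span hy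
  have hreg : IsRegular L.N ((yList r ϖ).map L.φ) :=
    isRegular_map_phi L (isWeaklyRegular_yList hϖ.ne_zero) hys
  have hfree : Module.Free (MvPowerSeries (Fin r) 𝒪) L.N :=
    hA (yList r ϖ) ((yList r ϖ).map L.φ) hmax (by simp)
      (mem_maximalIdeal_of_isRegular hreg) hreg.toIsWeaklyRegular
  exact final_of_free L

end Fermat.Agent.S57.H65
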