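import Mathlib.RingTheory.MvPowerSeries.Basic
import Mathlib.RingTheory.MvPowerSeries.Inverse
import Mathlib.RingTheory.Regular.RegularSequence
import Mathlib.RingTheory.LocalRing.MaximalIdeal.Basic

set_option autoImplicit false

namespace Fermat.Agent.S57

open MvPowerSeries RingTheory.Sequence

variable {σ : Type*} {R : Type*} [CommRing R]

/-- power series all of whose monomials involve one of the variables in `s` -/
def varIdeal (s : Set σ) : Ideal (MvPowerSeries σ R) where
  carrier := {f | ∀ m : σ →₀ ℕ, (∀ j ∈ s, m j = 0) → coeff m f = 0}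
  add_mem' := by
    intro f g hf hg m hm
    simp [hf m hm, hg m hm]
  zero_mem' := by
    intro m _
    simp
  smul_mem' := by
    classical
    intro c f hf m hm
    rw [smul_eq_mul, coeff_mul]
    apply Finset.sum_eq_zero
    rintro ⟨i, j⟩ hij
    rw [Finset.mem_antidiagonal] at hij
    have hj : ∀ k ∈ s, j k = 0 := by
      intro k hk
      have h1 := hm k hk
      rw [← hij] at h1
      simp only [Finsupp.coe_add, Pi.add_apply, Nat.add_eq_zero_iff] at h1
      exact h1.2
    rw [hf j hj, mul_zero]

theorem mem_varIdeal {s : Set σ} {f : MvPowerSeries σ R} :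
    f ∈ varIdeal s ↔ ∀ m : σ →₀ ℕ, (∀ j ∈ s, m j = 0) → coeff m f = 0 := Iff.rfl

theorem varIdeal_mono {s t : Set σ} (h : s ⊆ t) :
    (varIdeal s : Ideal (MvPowerSeries σ R)) ≤ varIdeal t :=
  fun _ hf m hm => hf m (fun j hj => hm j (h hj))

theorem varIdeal_empty : (varIdeal (∅ : Set σ) : Ideal (MvPowerSeries σ R)) = ⊥ := by
  rw [eq_bot_iff]
  intro f hf
  rw [Submodule.mem_bot]
  ext m
  simpa using hf m (by simp)

theorem X_mem_varIdeal {s : Set σ} {a : σ} (ha : a ∈ s) :
    (X a : MvPowerSeries σ R) ∈ varIdeal s := by
  classical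
  intro m hm
  rw [coeff_X, if_neg]
  intro h
  have := hm a ha
  rw [h] at this
  simp at this

theorem mem_varIdeal_of_X_mul_mem {s : Set σ} {a : σ} (ha : a ∉ s) {f : MvPowerSeries σ R}
    (hf : X a * f ∈ varIdeal s) : f ∈ varIdeal s := by
  classical
  intro m hm
  have h1 : coeff (Finsupp.single a 1 + m) (X a * f) = 0 := by
    apply hf
    intro j hj
    have hja : a ≠ j := fun h => ha (h ▸ hj)
    simp [hm j hj, hja]
  rw [X_def, coeff_add_monomial_mul, one_mul] at h1
  exact h1

theorem varIdeal_insert (s : Set σ) (a : σ) :
    (varIdeal (insert a s) : Ideal (MvPowerSeries σ R)) = varIdeal s ⊔ Ideal.span {X a} := by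
  classical
  apply le_antisymm
  · intro f hf
    let g : MvPowerSeries σ R := fun m => if m a = 0 then coeff m f else 0
    have hg : g ∈ varIdeal s := by
      intro m hm
      change (if m a = 0 then coeff m f else 0) = 0
      split_ifs with h
      · apply hf
        intro j hj
        rcases hj with rfl | hj
        · exact h
        · exact hm j hj
      · rfl
    have hfg : X a ∣ f - g := by
      rw [X_dvd_iff]
      intro m hm
      rw [map_sub]
      change coeff m f - (if m a = 0 then coeff m f else 0) = 0
      rw [if_pos hm, sub_self]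
    have : f = g + (f - g) := by ring
    rw [this]
    exact Submodule.add_mem_sup hg (Ideal.mem_span_singleton.mpr hfg)
  · apply sup_le
    · exact varIdeal_mono (Set.subset_insert _ _)
    · rw [Ideal.span_le, Set.singleton_subset_iff]
      exact X_mem_varIdeal (Set.mem_insert _ _)

theorem varIdeal_finset (s : Finset σ) :
    (varIdeal (s : Set σ) : Ideal (MvPowerSeries σ R)) = Ideal.span (X '' (s : Set σ)) := by
  classical
  induction s using Finset.induction_on with
  | empty => simp [varIdeal_empty]
  | insert a s _ ih =>
    rw [Finset.coe_insert, varIdeal_insert, ih, Set.image_insert_eq, ← Ideal.span_union,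
      Set.union_comm, Set.singleton_union]

theorem mem_varIdeal_univ [Finite σ] {f : MvPowerSeries σ R} :
    f ∈ varIdeal (Set.univ : Set σ) ↔ constantCoeff f = 0 := by
  rw [mem_varIdeal, ← coeff_zero_eq_constantCoeff_apply]
  constructor
  · intro h
    exact h 0 (by simp)
  · intro h m hm
    have : m = 0 := by
      ext j
      simpa using hm j (Set.mem_univ j)
    rw [this, h]

end Fermat.Agent.S57
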